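import Fermat.Agent.Jac.ClassesGlue86.Carrier
import Fermat.Agent.Jac.Functor32.Small
import Fermat.Agent.Jac.Functor32.Sep
import Fermat.Agent.Jac.GammaTopGeneral40

set_option autoImplicit false

open CategoryTheory CategoryTheory.Limits AlgebraicGeometry AlgebraicGeometry.RelPicard
open NeronModelInfra GoodReductionJacobian
open Fermat.Agent.Jac.ModGlue88 Fermat.Agent.Jac.ClassesGlue86.OpenImm
open Fermat.Agent.Jac.ClassesGlue86.OpenBase Fermat.Agent.Jac.ClassesGlue86.Carrier
open Fermat.Agent.Jac.GammaTopGeneral40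

universe u

noncomputable section

namespace Fermat.Agent.Jac.ClassesGlue86.Final

/-- The retraction form of the gluing statement (`ModGlue88.glue_of_retraction`), as a
proposition. -/
def GlueOfRetraction : Prop :=
  ∀ {X T : Scheme.{u}} (p : X ⟶ T) (s : T ⟶ X), s ≫ p = 𝟙 T →
    (∀ V : T.Opens, Function.Surjective (p.app V).hom) →
    ∀ {ι : Type u} (U : ι → T.Opens), iSup U = ⊤ →
    ∀ (E : ι → X.Modules), (∀ i, IsLocallyTrivial (E i) (p ⁻¹ᵁ U i)) →
      (∀ i, Nonempty (LocalIso ((Scheme.Modules.pullback s).obj (E i))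
        (SheafOfModules.unit T.ringCatSheaf) (U i))) →
      (∀ i j, Nonempty (LocalIso (E i) (E j) (p ⁻¹ᵁ (U i ⊓ U j)))) →
      ∃ L : X.Modules, Scheme.Modules.IsInvertible L ∧
        Nonempty ((Scheme.Modules.pullback s).obj L ≅ SheafOfModules.unit T.ringCatSheaf) ∧
        ∀ i, Nonempty (LocalIso L (E i) (p ⁻¹ᵁ U i))

variable {k : Type u} [Field k] {C : Scheme.{u}} {c : C ⟶ Spec (CommRingCat.of k)}
  {ε : SchemeHomOver (𝟙 (Spec (CommRingCat.of k))) c}

/-- Hypothesis (HΓ) of `Functor32` from `Γ(C_A, 𝒪) = A`. -/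
theorem hGamma_of_gammaTopAffine (hγ : GammaTopAffine c) : Functor32.HGamma c ε := by
  intro T t x y hxy
  obtain ⟨a, rfl⟩ := (bijective_snd_app t hγ ⊤).2 x
  obtain ⟨b, rfl⟩ := (bijective_snd_app t hγ ⊤).2 y
  have h : ∀ a : Γ(T, ⊤), (rigSection c t ε).appTop ((pullback.snd c t).appTop a) = a := by
    intro a
    have h1 : (pullback.snd c t).appTop ≫ (rigSection c t ε).appTop = 𝟙 _ := by
      rw [← Scheme.Hom.comp_appTop, rigSection_snd]
      rfl
    exact congrArg (fun f => f a) h1
  have hab : a = b := by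
    rw [← h a, ← h b]
    exact hxy
  rw [hab]

/-- Surjectivity of `Γ(T, V) → Γ(C × T, p⁻¹ V)` from `Γ(C_A, 𝒪) = A`. -/
theorem surjective_snd_app (hγ : GammaTopAffine c) {T : Scheme.{u}}
    (t : T ⟶ Spec (CommRingCat.of k)) (V : T.Opens) :
    Function.Surjective ((pullback.snd c t).app V).hom :=
  (bijective_snd_app t hγ V).2

/-- The field `glue` of `ClassesIsSheaf`, from the retraction form of the gluing statement. -/
theorem classes_glue (H : GlueOfRetraction.{u}) (hγ : GammaTopAffine c)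
    {T : Scheme.{u}} (t : T ⟶ Spec (CommRingCat.of k)) {ι : Type u} (U : ι → T.Opens)
    (hU : ⨆ i, U i = ⊤) (M : ∀ i, RigidifiedLineBundle c ε ((U i).ι ≫ t))
    (h : ∀ i j, Nonempty
      (((M i).pullbackAlong (openInclLE t (inf_le_left : U i ⊓ U j ≤ U i))).L ≅
        ((M j).pullbackAlong (openInclLE t (inf_le_right : U i ⊓ U j ≤ U j))).L)) :
    ∃ M₀ : RigidifiedLineBundle c ε t, ∀ i, Nonempty ((restrictOpen M₀ (U i)).L ≅ (M i).L) := by
  obtain ⟨L, hL, hρ, hα⟩ := H (pullback.snd c t) (rigSection c t ε) (rigSection_snd c ε t)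
    (surjective_snd_app hγ t) U hU (fun i => carrier (M i))
    (fun i => carrier_isLocallyTrivial (M i))
    (fun i => ⟨carrierRig (M i)⟩) (fun i j => (h i j).map (carrierOverlap (M i) (M j)))
  exact ⟨⟨L, hL, hρ⟩, fun i => (hα i).map (restrictOpenIsoOfCarrier (M i) ⟨L, hL, hρ⟩)⟩

/-- **R1**: isomorphism classes of rigidified line bundles form a Zariski sheaf, from
`Γ(C_A, 𝒪) = A` and the retraction form of the gluing statement. -/
theorem classesIsSheaf_of_glueOfRetraction (H : GlueOfRetraction.{u}) (hγ : GammaTopAffine c) :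
    ClassesIsSheaf c ε where
  small := fun t => Functor32.classes_small t
  sep := fun _ M M' _ U hU h =>
    Functor32.classes_sep (hGamma_of_gammaTopAffine hγ) M M' U hU h
  glue := fun t _ U hU M h => classes_glue H hγ t U hU M h

end Fermat.Agent.Jac.ClassesGlue86.Final
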