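/-
Programme JAC (S25), brick R1 (helper86): isomorphism classes of rigidified line bundles on
`C × T` form a Zariski sheaf in `T`, from `Γ(C_A, 𝒪) = A`.

Assembly of: `Functor32.classes_small`, `Functor32.classes_sep` (helper32),
`ModGlue88.glue_of_retraction` (helper88), `GammaTopGeneral40.bijective_snd_app` (helper40) and the
instantiation layer `ClassesGlue86`.
-/
import Fermat.Agent.Jac.ClassesGlue86.Final
import Fermat.Agent.Jac.ModGlue88.Rigid

set_option autoImplicit false

open CategoryTheory CategoryTheory.Limits AlgebraicGeometry AlgebraicGeometry.RelPicard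
open NeronModelInfra GoodReductionJacobian
open Fermat.Agent.Jac.ModGlue88 Fermat.Agent.Jac.GammaTopGeneral40

universe u

namespace Fermat.Agent.Jac.ClassesGlue86.Main

/-- The retraction form of the gluing statement holds (`ModGlue88.glue_of_retraction`). -/
theorem glueOfRetraction : Final.GlueOfRetraction.{u} :=
  fun p s hsp HΓ _ U hU E hE ρ φ => glue_of_retraction p s hsp HΓ U hU E hE ρ φ

variable {k : Type u} [Field k] {C : Scheme.{u}} {c : C ⟶ Spec (CommRingCat.of k)}
  {ε : SchemeHomOver (𝟙 (Spec (CommRingCat.of k))) c}

/-- **R1.** Isomorphism classes of rigidified line bundles on `C × T` form a Zariski sheaf in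
`T`, as soon as `Γ(C_A, 𝒪) = A` for every `k`-algebra `A`. -/
theorem classesIsSheaf (hγ : GammaTopAffine c) : ClassesIsSheaf c ε :=
  Final.classesIsSheaf_of_glueOfRetraction glueOfRetraction hγ

end Fermat.Agent.Jac.ClassesGlue86.Main
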