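import Fermat.Agent.Jac.ClassesGlue86.Carrier

set_option autoImplicit false

open CategoryTheory CategoryTheory.Limits AlgebraicGeometry AlgebraicGeometry.RelPicard
open NeronModelInfra GoodReductionJacobian
open Fermat.Agent.Jac.ModGlue88 Fermat.Agent.Jac.ClassesGlue86.OpenImm
open Fermat.Agent.Jac.ClassesGlue86.OpenBase Fermat.Agent.Jac.ClassesGlue86.Carrier

universe u

noncomputable section

namespace Fermat.Agent.Jac.ClassesGlue86.Assembly

/-- Abstract retraction form of the separation statement: for `p : X ⟶ T` with a section `s`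
and `Γ(T, U) → Γ(X, p⁻¹U)` onto, rigidified invertible modules on `X` which are isomorphic
locally on `T` are isomorphic. -/
def AbstractSep : Prop :=
  ∀ {X T : Scheme.{u}} (p : X ⟶ T) (s : T ⟶ X), s ≫ p = 𝟙 T →
    (∀ U : T.Opens, Function.Surjective (p.app U)) →
    ∀ {ι : Type u} (U : ι → T.Opens), (⨆ i, U i = ⊤) →
    ∀ (L L' : X.Modules), Scheme.Modules.IsInvertible L → Scheme.Modules.IsInvertible L' →
      Nonempty ((Scheme.Modules.pullback s).obj L ≅ unitMod T) →
      Nonempty ((Scheme.Modules.pullback s).obj L' ≅ unitMod T) →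
      (∀ i, Nonempty (LocalIso L L' (p ⁻¹ᵁ U i))) → Nonempty (L ≅ L')

/-- Abstract retraction form of the gluing statement. -/
def AbstractGlue : Prop :=
  ∀ {X T : Scheme.{u}} (p : X ⟶ T) (s : T ⟶ X), s ≫ p = 𝟙 T →
    (∀ U : T.Opens, Function.Surjective (p.app U)) →
    ∀ {ι : Type u} (U : ι → T.Opens), (⨆ i, U i = ⊤) →
    ∀ (E : ι → X.Modules), (∀ i, IsLocallyTrivial (E i) (p ⁻¹ᵁ U i)) →
      (∀ i, Nonempty (LocalIso ((Scheme.Modules.pullback s).obj (E i)) (unitMod T) (U i))) →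
      (∀ i j, Nonempty (LocalIso (E i) (E j) (p ⁻¹ᵁ (U i ⊓ U j)))) →
      ∃ L : X.Modules, Scheme.Modules.IsInvertible L ∧
        Nonempty ((Scheme.Modules.pullback s).obj L ≅ unitMod T) ∧
        ∀ i, Nonempty (LocalIso L (E i) (p ⁻¹ᵁ U i))

variable {k : Type u} [Field k] {C : Scheme.{u}} (c : C ⟶ Spec (CommRingCat.of k))
  (ε : SchemeHomOver (𝟙 (Spec (CommRingCat.of k))) c)

/-- The hypothesis `Γ(T, U) → Γ(C × T, p⁻¹ U)` is onto, for all test schemes. -/
def GammaSurjective : Prop :=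
  ∀ {T : Scheme.{u}} (t : T ⟶ Spec (CommRingCat.of k)) (U : T.Opens),
    Function.Surjective ((pullback.snd c t).app U)

variable {c ε}

theorem sep_of_abstract (H : AbstractSep.{u}) (HΓ : GammaSurjective c)
    {T : Scheme.{u}} (t : T ⟶ Spec (CommRingCat.of k)) (M M' : RigidifiedLineBundle c ε t)
    {ι : Type u} (U : ι → T.Opens) (hU : ⨆ i, U i = ⊤)
    (h : ∀ i, Nonempty ((restrictOpen M (U i)).L ≅ (restrictOpen M' (U i)).L)) :
    Nonempty (M.L ≅ M'.L) :=
  H (pullback.snd c t) (rigSection c t ε) (rigSection_snd c ε t) (HΓ t) U hU M.L M'.L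
    M.isInvertible M'.isInvertible M.rigidified M'.rigidified
    (fun i => (h i).map (localIsoOfRestrictOpenIso M M' (U i)))

theorem glue_of_abstract (H : AbstractGlue.{u}) (HΓ : GammaSurjective c)
    {T : Scheme.{u}} (t : T ⟶ Spec (CommRingCat.of k)) {ι : Type u} (U : ι → T.Opens)
    (hU : ⨆ i, U i = ⊤) (M : ∀ i, RigidifiedLineBundle c ε ((U i).ι ≫ t))
    (h : ∀ i j, Nonempty
      (((M i).pullbackAlong (openInclLE t (inf_le_left : U i ⊓ U j ≤ U i))).L ≅
        ((M j).pullbackAlong (openInclLE t (inf_le_right : U i ⊓ U j ≤ U j))).L)) :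
    ∃ M₀ : RigidifiedLineBundle c ε t, ∀ i, Nonempty ((restrictOpen M₀ (U i)).L ≅ (M i).L) := by
  obtain ⟨L, hL, hρ, hα⟩ := H (pullback.snd c t) (rigSection c t ε) (rigSection_snd c ε t) (HΓ t)
    U hU (fun i => carrier (M i)) (fun i => carrier_isLocallyTrivial (M i))
    (fun i => ⟨carrierRig (M i)⟩) (fun i j => (h i j).map (carrierOverlap (M i) (M j)))
  exact ⟨⟨L, hL, hρ⟩, fun i => (hα i).map (restrictOpenIsoOfCarrier (M i) ⟨L, hL, hρ⟩)⟩

/-- `ClassesIsSheaf` from smallness, the abstract retraction-form statements and the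
surjectivity of `Γ(T, U) → Γ(C × T, p⁻¹ U)`. -/
theorem classesIsSheaf_of_abstract
    (hsmall : ∀ {T : Scheme.{u}} (t : T ⟶ Spec (CommRingCat.of k)),
      Small.{u} (RigidifiedLineBundle.Classes c ε t))
    (Hsep : AbstractSep.{u}) (Hglue : AbstractGlue.{u}) (HΓ : GammaSurjective c) :
    ClassesIsSheaf c ε where
  small := hsmall
  sep := fun t M M' _ U hU h => sep_of_abstract Hsep HΓ t M M' U hU h
  glue := fun t _ U hU M h => glue_of_abstract Hglue HΓ t U hU M h

end Fermat.Agent.Jac.ClassesGlue86.Assembly
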