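import Fermat.Agent.Jac.ClassesGlue86.OpenBase

set_option autoImplicit false

open CategoryTheory CategoryTheory.Limits AlgebraicGeometry AlgebraicGeometry.RelPicard
open NeronModelInfra GoodReductionJacobian
open Fermat.Agent.Jac.ModGlue88 Fermat.Agent.Jac.ClassesGlue86.OpenImm
open Fermat.Agent.Jac.ClassesGlue86.OpenBase

universe u

noncomputable section

namespace Fermat.Agent.Jac.ClassesGlue86.Carrier

variable {k : Type u} [Field k] {C : Scheme.{u}} {c : C ⟶ Spec (CommRingCat.of k)}
  {ε : SchemeHomOver (𝟙 (Spec (CommRingCat.of k))) c}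
  {T : Scheme.{u}} {t : T ⟶ Spec (CommRingCat.of k)}

/-- The extension by pushforward to `C × T` of a line bundle on `C × U`. -/
def carrier {U : T.Opens} (M : RigidifiedLineBundle c ε (U.ι ≫ t)) : (pullback c t).Modules :=
  (Scheme.Modules.pushforward (gOpen c t U)).obj M.L

/-- The carrier restricts to the original bundle. -/
def carrierIso {U : T.Opens} (M : RigidifiedLineBundle c ε (U.ι ≫ t)) :
    (Scheme.Modules.pullback (gOpen c t U)).obj (carrier M) ≅ M.L :=
  pullbackPushforwardIso (gOpen c t U) M.L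

lemma carrier_isLocallyTrivial {U : T.Opens} (M : RigidifiedLineBundle c ε (U.ι ≫ t)) :
    IsLocallyTrivial (carrier M) ((pullback.snd c t) ⁻¹ᵁ U) := by
  rw [← opensRange_gOpen c t U, ← isInvertible_pullback_iff]
  exact isInvertible_of_iso (carrierIso M).symm M.isInvertible

/-- The carrier is rigidified over `U`. -/
def carrierRig {U : T.Opens} (M : RigidifiedLineBundle c ε (U.ι ≫ t)) :
    LocalIso ((Scheme.Modules.pullback (rigSection c t ε)).obj (carrier M)) (unitMod T) U :=
  castOpen (Scheme.Opens.opensRange_ι U) (localIsoOfPullbackIso U.ι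
    ((Scheme.Modules.pullbackComp U.ι (rigSection c t ε)).app (carrier M) ≪≫
      (Scheme.Modules.pullbackCongr (rigSection_gOpen c ε t U).symm).app (carrier M) ≪≫
      ((Scheme.Modules.pullbackComp (rigSection c (U.ι ≫ t) ε) (gOpen c t U)).app (carrier M)).symm ≪≫
      (Scheme.Modules.pullback (rigSection c (U.ι ≫ t) ε)).mapIso (carrierIso M) ≪≫
      M.rigidified.some ≪≫ (Scheme.Modules.pullbackUnitIso U.ι).symm))

/-- The restriction of the carrier to a smaller open. -/
def carrierRestrictIso {V U : T.Opens} (h : V ≤ U) (M : RigidifiedLineBundle c ε (U.ι ≫ t)) :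
    (Scheme.Modules.pullback (gOpen c t V)).obj (carrier M) ≅
      (M.pullbackAlong (openInclLE t h)).L :=
  (Scheme.Modules.pullbackCongr (baseChangeSnd_openInclLE_gOpen c t h).symm).app (carrier M) ≪≫
    ((Scheme.Modules.pullbackComp (baseChangeSnd c (openInclLE t h)) (gOpen c t U)).app
      (carrier M)).symm ≪≫
    (Scheme.Modules.pullback (baseChangeSnd c (openInclLE t h))).mapIso (carrierIso M)

/-- Bundles agreeing on the overlap have locally isomorphic carriers. -/
def carrierOverlap {U U' : T.Opens} (M : RigidifiedLineBundle c ε (U.ι ≫ t))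
    (M' : RigidifiedLineBundle c ε (U'.ι ≫ t))
    (e : (M.pullbackAlong (openInclLE t (inf_le_left : U ⊓ U' ≤ U))).L ≅
      (M'.pullbackAlong (openInclLE t (inf_le_right : U ⊓ U' ≤ U'))).L) :
    LocalIso (carrier M) (carrier M') ((pullback.snd c t) ⁻¹ᵁ (U ⊓ U')) :=
  castOpen (opensRange_gOpen c t (U ⊓ U')) (localIsoOfPullbackIso (gOpen c t (U ⊓ U'))
    (carrierRestrictIso inf_le_left M ≪≫ e ≪≫ (carrierRestrictIso inf_le_right M').symm))

/-- A bundle locally isomorphic to the carrier restricts to the original bundle. -/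
def restrictOpenIsoOfCarrier {U : T.Opens} (M : RigidifiedLineBundle c ε (U.ι ≫ t))
    (M₀ : RigidifiedLineBundle c ε t)
    (α : LocalIso M₀.L (carrier M) ((pullback.snd c t) ⁻¹ᵁ U)) :
    (restrictOpen M₀ U).L ≅ M.L :=
  restrictOpenIsoOfLocalIso M₀ U α ≪≫ carrierIso M

end Fermat.Agent.Jac.ClassesGlue86.Carrier
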