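import Fermat.Agent.Jac.ModGlue88.Invertible
import Fermat.Agent.Jac.ModGlue88.PullbackForm

set_option autoImplicit false

open CategoryTheory AlgebraicGeometry
open Fermat.Agent.Jac.ModGlue88

universe u

noncomputable section

namespace Fermat.Agent.Jac.ClassesGlue86.OpenImm

open Scheme.Modules

variable {X Y Z : Scheme.{u}}

/-- Transport of a local isomorphism along an equality of opens. -/
def castOpen {M N : X.Modules} {U V : X.Opens} (h : U = V) (α : LocalIso M N U) :
    LocalIso M N V :=
  α.restrict (le_of_eq h.symm)

section

variable (g : Y ⟶ X) [IsOpenImmersion g] {M N : X.Modules}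

/-- An isomorphism between the pullbacks along an open immersion gives an isomorphism between
the restrictions. -/
def restrictIsoOfPullbackIso (e : (pullback g).obj M ≅ (pullback g).obj N) :
    M.restrict g ≅ N.restrict g :=
  (restrictFunctorIsoPullback g).app M ≪≫ e ≪≫ ((restrictFunctorIsoPullback g).app N).symm

/-- An isomorphism between the restrictions along an open immersion gives an isomorphism between
the pullbacks. -/
def pullbackIsoOfRestrictIso (e : M.restrict g ≅ N.restrict g) :
    (pullback g).obj M ≅ (pullback g).obj N :=
  ((restrictFunctorIsoPullback g).app M).symm ≪≫ e ≪≫ (restrictFunctorIsoPullback g).app N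

/-- An isomorphism between the pullbacks along an open immersion `g` is a local isomorphism over
the range of `g`. -/
def localIsoOfPullbackIso (e : (pullback g).obj M ≅ (pullback g).obj N) :
    LocalIso M N g.opensRange :=
  LocalIso.ofRestrictIso g (restrictIsoOfPullbackIso g e)

/-- A local isomorphism over the range of an open immersion `g` gives an isomorphism between the
pullbacks along `g`. -/
def pullbackIsoOfLocalIso (α : LocalIso M N g.opensRange) :
    (pullback g).obj M ≅ (pullback g).obj N :=
  pullbackIsoOfRestrictIso g (α.toRestrictIso g)

/-- The pullback along an open immersion of the pushforward is the original module. -/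
def pullbackPushforwardIso (P : Y.Modules) :
    (pullback g).obj ((pushforward g).obj P) ≅ P :=
  ((restrictFunctorIsoPullback g).app ((pushforward g).obj P)).symm ≪≫
    (restrictFunctorAdjCounitIso g).app P

end

end Fermat.Agent.Jac.ClassesGlue86.OpenImm
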