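import Fermat.Agent.Jac.RepInterface
import Fermat.Agent.Jac.ClassesGlue86.OpenImm

set_option autoImplicit false

open CategoryTheory CategoryTheory.Limits AlgebraicGeometry AlgebraicGeometry.RelPicard
open NeronModelInfra GoodReductionJacobian
open Fermat.Agent.Jac.ModGlue88 Fermat.Agent.Jac.ClassesGlue86.OpenImm

universe u

noncomputable section

namespace Fermat.Agent.Jac.ClassesGlue86.OpenBase

variable {k : Type u} [Field k] {C : Scheme.{u}} (c : C ⟶ Spec (CommRingCat.of k))
  (ε : SchemeHomOver (𝟙 (Spec (CommRingCat.of k))) c)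
  {T : Scheme.{u}} (t : T ⟶ Spec (CommRingCat.of k))

/-- The open immersion `C × U ⟶ C × T` for an open `U ⊆ T`. -/
abbrev gOpen (U : T.Opens) : pullback c (U.ι ≫ t) ⟶ pullback c t :=
  baseChangeSnd c (openIncl t U)

instance (U : T.Opens) : IsOpenImmersion (gOpen c t U) := by
  have : IsOpenImmersion (openIncl t U).1 := inferInstanceAs (IsOpenImmersion U.ι)
  unfold gOpen baseChangeSnd
  infer_instance

lemma gOpen_snd (U : T.Opens) :
    gOpen c t U ≫ pullback.snd c t = pullback.snd c (U.ι ≫ t) ≫ U.ι := by
  unfold gOpen baseChangeSnd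
  rw [pullback.lift_snd]
  rfl

lemma gOpen_fst (U : T.Opens) :
    gOpen c t U ≫ pullback.fst c t = pullback.fst c (U.ι ≫ t) := by
  unfold gOpen baseChangeSnd
  rw [pullback.lift_fst, Category.comp_id]

lemma opensRange_gOpen (U : T.Opens) :
    (gOpen c t U).opensRange = (pullback.snd c t) ⁻¹ᵁ U := by
  apply TopologicalSpace.Opens.ext
  have h := Scheme.Pullback.range_map c (U.ι ≫ t) c t (𝟙 C) (openIncl t U).1 (𝟙 _)
    ((Category.comp_id c).trans (Category.id_comp c).symm)
    ((Category.comp_id _).trans (openIncl t U).2.symm)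
  change Set.range (gOpen c t U) = _
  unfold gOpen baseChangeSnd
  rw [h]
  have h1 : Set.range (𝟙 C : C ⟶ C) = Set.univ := by
    ext x; simp
  have : Set.range ((openIncl t U).1) = (U : Set T) := Scheme.Opens.range_ι U
  rw [this, h1, Set.preimage_univ, Set.univ_inter]
  rfl

/-- The inclusions `C × V ⟶ C × U ⟶ C × T` compose to `C × V ⟶ C × T`. -/
lemma baseChangeSnd_openInclLE_gOpen {V U : T.Opens} (h : V ≤ U) :
    baseChangeSnd c (openInclLE t h) ≫ gOpen c t U = gOpen c t V := by
  unfold gOpen
  rw [baseChangeSnd_comp]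
  congr 1
  exact Subtype.ext (T.homOfLE_ι h)

/-- The rigidifying section of `C × U` is the restriction of that of `C × T`. -/
lemma rigSection_gOpen (U : T.Opens) :
    rigSection c (U.ι ≫ t) ε ≫ gOpen c t U = U.ι ≫ rigSection c t ε :=
  rigSection_baseChangeSnd c ε (openIncl t U)

/-- `rigSection` is a section of the second projection. -/
lemma rigSection_snd : rigSection c t ε ≫ pullback.snd c t = 𝟙 T := by
  unfold rigSection
  rw [pullback.lift_snd]

variable {c ε t}

/-- An isomorphism between the restrictions to `C × U` is a local isomorphism over the preimage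
of `U`. -/
def localIsoOfRestrictOpenIso (M M' : RigidifiedLineBundle c ε t) (U : T.Opens)
    (e : (restrictOpen M U).L ≅ (restrictOpen M' U).L) :
    LocalIso M.L M'.L ((pullback.snd c t) ⁻¹ᵁ U) :=
  castOpen (opensRange_gOpen c t U) (localIsoOfPullbackIso (gOpen c t U) e)

/-- A local isomorphism over the preimage of `U` gives an isomorphism between the
restrictions to `C × U`. -/
def restrictOpenIsoOfLocalIso (M : RigidifiedLineBundle c ε t) (U : T.Opens)
    {E : (pullback c t).Modules} (α : LocalIso M.L E ((pullback.snd c t) ⁻¹ᵁ U)) :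
    (restrictOpen M U).L ≅ (Scheme.Modules.pullback (gOpen c t U)).obj E :=
  pullbackIsoOfLocalIso (gOpen c t U) (castOpen (opensRange_gOpen c t U).symm α)

end Fermat.Agent.Jac.ClassesGlue86.OpenBase
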